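/-
S17lib / GenDiv / Spec  (helper2) — Project G: the SPEC half of GENDIV.

From a relation `div φ = m (∑_j Q'_j + c_* C) - η' + c(inf)` on the curve over the big field `Ω`
(`Q'_j`, `η'` the `Ω`-points of the `L`-points `σ_j`, `η`; `c_* C` a constant divisor) and, at every
place `x` of `L`, a specialisation map `r_x` of places (preserving principal divisors, and sending
the `Ω`-point of an `L`-point `S` to the reduction `S(x)`):

  for every place `P` of `F` there is `x` over `P` along `η` with
  `m • ([C + d inf] + ∑_j [σ_j(x) - inf]) = [P - inf]`        — GENDIV's clause (SPEC).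
-/
import Mathlib
import Fermat.Agent.S17lib.Glue
import Fermat.Agent.S17lib.DegChain.Dict

set_option autoImplicit false
set_option linter.unusedSectionVars false
set_option linter.style.haveILetI false

noncomputable section

namespace Fermat.Agent.S17lib.GenDivSpec

open AlgebraicCurve Fermat.Agent.S17lib.DegChain
open Fermat.Agent.ProgramR.RHLocal Fermat.Agent.S18lib

section Fibre

variable {k F L : Type*} [Field k] [Field F] [Field L] [Algebra k F] [Algebra k L]

/-- the fibre of a finite `η : F → L` over a place of `F` is not empty -/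
theorem exists_place_over [CharZero k] [HasPrincipalDivisors k L]
    (hdegL : ∀ x : Place k L, x.deg = 1) (η : F →ₐ[k] L) (hη : η.toRingHom.IsIntegral)
    (hfin : FiniteAlong k η) (P : Place k F) (hP : P.deg = 1) :
    ∃ x : Place k L, x.restrictAlong η hη = P := by
  classical
  have hFI := fundamentalIdentityAlong_of_finite hdegL η hη hfin
  by_contra hcon
  push Not at hcon
  have hempty : Place.fiberAlong η hη P = ∅ := by
    rw [Finset.eq_empty_iff_forall_notMem]
    intro x hx
    exact hcon x (Place.mem_fiberAlong.1 hx)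
  letI := algebraAlong η
  haveI := isScalarTower_along η
  haveI := isIntegral_along η hη
  haveI : Module.Finite F L := hfin
  have h := (show FundamentalIdentity k F L from hFI).sum_ramificationIndex_mul_deg P
  have hpos : 0 < Module.finrank F L := Module.finrank_pos
  have hempty' : Place.fiber (K := k) (F := F) (F' := L) P = ∅ := hempty
  rw [hempty', Finset.sum_empty, hP] at h
  simp only [Nat.cast_one, mul_one] at h
  omega

end Fibre

section Spec

variable {k L Ω F FΩ : Type*} [Field k] [Field L] [Field Ω] [Field F] [Field FΩ]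
  [Algebra k L] [Algebra L Ω] [Algebra k Ω] [IsScalarTower k L Ω] [Algebra k F]
  [Algebra Ω FΩ] [Algebra k FΩ] [IsScalarTower k Ω FΩ] (ι : F →ₐ[k] FΩ)

/-- the constant class `[C + d inf]` -/
def constClass (inf : Place k F) (hdeg : ∀ P : Place k F, P.deg = 1) (d : ℕ) (C : Divisor k F)
    (hC : Divisor.degree C + d = 0) : Divisor.degZero (K := k) (F := F) :=
  ⟨C + d • Finsupp.single inf (1 : ℤ), by
    rw [Divisor.mem_degZero, map_add, map_nsmul, Divisor.degree_single, hdeg inf]
    simp only [Nat.cast_one, mul_one, nsmul_eq_mul]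
    exact hC⟩

/-- the divisor relation downstairs gives the relation of classes -/
theorem class_relation (inf : Place k F) (hdeg : ∀ P : Place k F, P.deg = 1) (m d : ℕ)
    (C : Divisor k F) (hC : Divisor.degree C + d = 0) (Q : Fin d → Place k F) (P : Place k F)
    (hprin : (m • (∑ j, Finsupp.single (Q j) (1 : ℤ) + C) - Finsupp.single P (1 : ℤ)
      + Finsupp.single inf (1 : ℤ) : Divisor k F) ∈ Divisor.principal (K := k) (F := F)) :
    m • (Pic0.mk (constClass inf hdeg d C hC) + ∑ j, Pic0.mk (ptDiv inf hdeg (Q j))) =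
      Pic0.mk (ptDiv inf hdeg P) := by
  set N := (Divisor.principal (K := k) (F := F)).addSubgroupOf (Divisor.degZero (K := k) (F := F))
    with hN
  have hmk : ∀ D : Divisor.degZero (K := k) (F := F), Pic0.mk D = QuotientAddGroup.mk' N D :=
    fun D => rfl
  simp only [hmk]
  rw [← map_sum, ← map_add, ← map_nsmul]
  symm
  rw [QuotientAddGroup.mk'_apply, QuotientAddGroup.mk'_apply, QuotientAddGroup.eq,
    hN, AddSubgroup.mem_addSubgroupOf]
  have hcoe : ((-ptDiv inf hdeg P + m • (constClass inf hdeg d C hC + ∑ j, ptDiv inf hdeg (Q j)) :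
      Divisor.degZero (K := k) (F := F)) : Divisor k F) =
      m • (∑ j, Finsupp.single (Q j) (1 : ℤ) + C) - Finsupp.single P (1 : ℤ)
        + Finsupp.single inf (1 : ℤ) := by
    have h1 : ((∑ j, ptDiv inf hdeg (Q j) : Divisor.degZero (K := k) (F := F)) : Divisor k F) =
        ∑ j, Finsupp.single (Q j) (1 : ℤ) - d • Finsupp.single inf (1 : ℤ) := by
      rw [AddSubgroup.val_finsetSum]
      show ∑ j, (Finsupp.single (Q j) (1 : ℤ) - Finsupp.single inf (1 : ℤ)) = _
      rw [Finset.sum_sub_distrib, Finset.sum_const, Finset.card_univ, Fintype.card_fin]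
    rw [AddSubgroup.coe_add, AddSubgroup.coe_neg, AddSubgroup.coe_nsmul, AddSubgroup.coe_add, h1]
    show -(Finsupp.single P (1 : ℤ) - Finsupp.single inf (1 : ℤ)) +
      m • (C + d • Finsupp.single inf (1 : ℤ) +
        (∑ j, Finsupp.single (Q j) (1 : ℤ) - d • Finsupp.single inf (1 : ℤ))) = _
    abel
  rw [hcoe]
  exact hprin

/-- **(SPEC), abstract form.**  `r_x` = the specialisation of places at `x` (`hLS`), `hrel` the
relation over `Ω`. -/
theorem spec_of_relation (inf : Place k F) (hdeg : ∀ P : Place k F, P.deg = 1) (m d : ℕ)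
    (η : F →ₐ[k] L) (hη : η.toRingHom.IsIntegral) (σ : Fin d → F →ₐ[k] L)
    (hσ : ∀ j, (σ j).toRingHom.IsIntegral)
    (η' : Place Ω FΩ) (Q' : Fin d → Place Ω FΩ) (cst : Place k F → Place Ω FΩ)
    (C : Divisor k F) (hC : Divisor.degree C + d = 0)
    (hηR : Realizes ι (KPt.gen η hη : KPt k F L) η')
    (hQR : ∀ j, Realizes ι (KPt.gen (σ j) (hσ j) : KPt k F L) (Q' j))
    (hcst : ∀ p, Realizes ι (KPt.const p : KPt k F L) (cst p))
    (hrel : (m • (∑ j, Finsupp.single (Q' j) (1 : ℤ) + Finsupp.mapDomain cst C)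
      - Finsupp.single η' (1 : ℤ) + Finsupp.single (cst inf) (1 : ℤ) : Divisor Ω FΩ) ∈
        Divisor.principal (K := Ω) (F := FΩ))
    (hLS : ∀ x : Place k L, ∃ r : Place Ω FΩ → Place k F,
      (∀ E : Divisor Ω FΩ, E ∈ Divisor.principal (K := Ω) (F := FΩ) →
        Finsupp.mapDomain r E ∈ Divisor.principal (K := k) (F := F)) ∧
      ∀ (S : KPt k F L) (S' : Place Ω FΩ), Realizes ι S S' → r S' = S.red x)
    (hfib : ∀ P : Place k F, ∃ x : Place k L, x.restrictAlong η hη = P) :
    ∀ P : Place k F, ∃ (x : Place k L) (Q : Fin d → Place k F),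
      LiesOver η x P ∧ (∀ j, LiesOver (σ j) x (Q j)) ∧
      m • (Pic0.mk (constClass inf hdeg d C hC) + ∑ j, Pic0.mk (ptDiv inf hdeg (Q j))) =
        Pic0.mk (ptDiv inf hdeg P) := by
  classical
  intro P
  obtain ⟨x, hx⟩ := hfib P
  obtain ⟨r, hprin, hr⟩ := hLS x
  refine ⟨x, fun j => x.restrictAlong (σ j) (hσ j), ?_, fun j => liesOver_restrictAlong _ _ _, ?_⟩
  · rw [← hx]
    exact liesOver_restrictAlong _ _ _
  · apply class_relation inf hdeg m d C hC
    have h1 := hprin _ hrel
    have e1 : r η' = P := by rw [hr _ _ hηR]; exact hx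
    have e2 : ∀ j, r (Q' j) = x.restrictAlong (σ j) (hσ j) := fun j => hr _ _ (hQR j)
    have e3 : ∀ p, r (cst p) = p := fun p => hr _ _ (hcst p)
    have e4 : Finsupp.mapDomain r (Finsupp.mapDomain cst C) = C := by
      rw [← Finsupp.mapDomain_comp]
      have : r ∘ cst = id := funext e3
      rw [this, Finsupp.mapDomain_id]
    rw [Finsupp.mapDomain_add, Finsupp.mapDomain_sub, Finsupp.mapDomain_single,
      Finsupp.mapDomain_single, e1, e3 inf] at h1
    have e5 : Finsupp.mapDomain r (m • (∑ j, Finsupp.single (Q' j) (1 : ℤ)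
        + Finsupp.mapDomain cst C)) =
        m • (∑ j, Finsupp.single (x.restrictAlong (σ j) (hσ j)) (1 : ℤ) + C) := by
      rw [← Finsupp.mapDomain.addMonoidHom_apply, map_nsmul, Finsupp.mapDomain.addMonoidHom_apply,
        Finsupp.mapDomain_add, e4, Finsupp.mapDomain_finsetSum]
      congr 2
      refine Finset.sum_congr rfl fun j _ => ?_
      rw [Finsupp.mapDomain_single, e2 j]
    rw [e5] at h1
    exact h1

end Spec

end Fermat.Agent.S17lib.GenDivSpec
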