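/-
S17lib / GenDiv / SpecCCR  (helper2) — Project G: the SPEC half of GENDIV on the constant-curve
reduction (block CCR).

* `mapDomain_specPlace_mem_principal`, `specPlace_realizes` : the specialisation map
  `r_x = specPlace h D` of a local setup `(A, h, D, hD)` over a place `x` of `L` (`A ∩ L = 𝒪_x`)
  preserves principal divisors and sends the `Ω`-point of an `L`-point `S` to `S(x)`;
* `exists_split` : a reduced effective divisor of `FΩ` is the sum of its non-constant points and of
  a constant divisor;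
* `principal_of_ord` : the relation `hrel` of `Spec.spec_of_relation` from the shape of the
  division datum (`DivAll.exists_division_data`);
* `spec_clause` : GENDIV's clause (SPEC).
-/
import Mathlib
import Fermat.Agent.S17lib.GenDiv.Spec
import Fermat.Agent.S17lib.CCR.Places
import Fermat.Agent.S17lib.CanDiff.ConstK

set_option autoImplicit false
set_option linter.unusedSectionVars false
set_option linter.style.haveILetI false

noncomputable section

namespace Fermat.Agent.S17lib.GenDivSpec

open AlgebraicCurve IntermediateField Fermat.Agent.S17lib.DegChain Fermat.Agent.S17lib.CCR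
open Fermat.Agent.S18lib Fermat.Agent.S27lib.BR Fermat.Agent.S15lib.Weil

section Setup

variable {k Ω Fk FΩ : Type*} [Field k] [Field Ω] [Field Fk] [Field FΩ]
  [Algebra k Ω] [Algebra k Fk] [Algebra Ω FΩ] [Algebra k FΩ] [IsScalarTower k Ω FΩ]

variable {A : ValuationSubring Ω} [Algebra k A] [IsScalarTower k A Ω]
  [Algebra (IsLocalRing.ResidueField A) Fk] [IsScalarTower k (IsLocalRing.ResidueField A) Fk]
  {ι : Fk →ₐ[k] FΩ}

/-- the specialisation of places of the constant-curve reduction preserves principal divisors -/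
theorem mapDomain_specPlace_mem_principal [HasPrincipalDivisors Ω FΩ] [HasPrincipalDivisors k Fk]
    [HasPrincipalDivisors (IsLocalRing.ResidueField A) Fk] (h : ConstData A ι)
    (D : RedDatum A FΩ Fk) {E : Divisor Ω FΩ}
    (hE : E ∈ Divisor.principal (K := Ω) (F := FΩ)) :
    Finsupp.mapDomain (specPlace h D) E ∈ Divisor.principal (K := k) (F := Fk) := by
  rw [mapDomain_specPlace, ← Transport.divEquiv_mem_principal (resEquiv h) (RingEquiv.refl Fk)
    (resEquiv_comm h), AddEquiv.apply_symm_apply]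
  exact D.mapDomain_mem_principal hE

/-- **the specialisation of the `Ω`-point of an `L`-point `S` at `x` is the reduction `S(x)`**,
for every local setup `(A, h, D, hD)` over `x`. -/
theorem specPlace_realizes [CharZero k] [IsAlgClosed k] [IsAlgClosed Ω]
    [HasPrincipalDivisors Ω FΩ] [HasPrincipalDivisors k Fk]
    [HasPrincipalDivisors (IsLocalRing.ResidueField A) Fk]
    [RatPlaces Ω FΩ] [RatPlaces (IsLocalRing.ResidueField A) Fk]
    (hc : ConstExt Ω ι) {h : ConstData A ι} {D : RedDatum A FΩ Fk}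
    (hD : D.toGaussDatum = gaussDatum h) (y₀ : Fk) [FiniteDimensional k⟮y₀⟯ Fk]
    (hdeg : ∀ f : Fk, Divisor.degree (polesOf (K := Ω) (ι f)) =
      Divisor.degree (polesOf (K := k) f))
    {L : Type*} [Field L] [Algebra k L] [Algebra L Ω] [IsScalarTower k L Ω]
    (x : Place k L) (hx : ∀ l : L, algebraMap L Ω l ∈ A ↔ l ∈ x.toValuationSubring)
    (S : KPt k Fk L) (S' : Place Ω FΩ) (hS : Realizes ι S S') :
    specPlace h D S' = S.red x := by
  cases S with
  | const p => exact CanDiff.specPlace_eq_of_ord_iota h hD hdeg hS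
  | gen σ hσ =>
    have hdegpos : ∀ Q : Place (IsLocalRing.ResidueField A) Fk, 0 < Q.deg := fun Q => by
      rw [RatPlaces.deg_eq_one Q]; exact one_pos
    apply Place.ext
    ext f
    exact liesOver_specPlace hc hD hdegpos y₀ σ x hx S' hS f

end Setup

section Split

variable {k Ω Fk FΩ : Type*} [Field k] [Field Ω] [Field Fk] [Field FΩ]
  [Algebra k Fk] [Algebra Ω FΩ]

/-- a reduced effective divisor is the sum of its points outside the range of an injective map
`cst` and of the push-forward of a reduced effective divisor along `cst` -/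
theorem exists_split (cst : Place k Fk → Place Ω FΩ) (hcst : Function.Injective cst)
    (E : Divisor Ω FΩ) (hE0 : 0 ≤ E) (hE1 : ∀ P, E P ≤ 1) :
    ∃ (d : ℕ) (Q' : Fin d → Place Ω FΩ) (E₀ : Divisor k Fk),
      Function.Injective Q' ∧ (∀ j, Q' j ∉ Set.range cst) ∧ (∀ j, E (Q' j) = 1) ∧
      (∀ p, E₀ p = E (cst p)) ∧
      E = ∑ j, Finsupp.single (Q' j) (1 : ℤ) + Finsupp.mapDomain cst E₀ := by
  classical
  have hE01 : ∀ P, E P = 0 ∨ E P = 1 := fun P => by
    have h0 : 0 ≤ E P := hE0 P
    have h1 := hE1 P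
    omega
  set s : Finset (Place Ω FΩ) := E.support.filter fun P => P ∉ Set.range cst with hs
  set E₀ : Divisor k Fk := Finsupp.comapDomain cst E hcst.injOn with hE₀
  refine ⟨s.card, fun j => ((s.equivFin).symm j : Place Ω FΩ), E₀, ?_, ?_, ?_, ?_, ?_⟩
  · intro i j hij
    exact (s.equivFin).symm.injective (Subtype.ext hij)
  · intro j
    exact (Finset.mem_filter.1 ((s.equivFin).symm j).2).2
  · intro j
    have hmem := (Finset.mem_filter.1 ((s.equivFin).symm j).2).1
    rcases hE01 ((s.equivFin).symm j : Place Ω FΩ) with h0 | h1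
    · exact absurd h0 (Finsupp.mem_support_iff.1 hmem)
    · exact h1
  · intro p
    rw [hE₀, Finsupp.comapDomain_apply]
  · have hsum : (∑ j, Finsupp.single (((s.equivFin).symm j : s) : Place Ω FΩ) (1 : ℤ)) =
        ∑ P ∈ s, Finsupp.single P (1 : ℤ) := by
      rw [← Finset.sum_coe_sort s (fun P => Finsupp.single P (1 : ℤ))]
      exact Equiv.sum_comp (s.equivFin).symm fun P : s => Finsupp.single (P : Place Ω FΩ) (1 : ℤ)
    rw [hsum]
    ext P
    rw [Finsupp.add_apply, Finsupp.finsetSum_apply]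
    by_cases hP : P ∈ Set.range cst
    · obtain ⟨p, rfl⟩ := hP
      rw [Finsupp.mapDomain_apply hcst, hE₀, Finsupp.comapDomain_apply]
      have : ∑ P' ∈ s, (Finsupp.single P' (1 : ℤ)) (cst p) = 0 := by
        refine Finset.sum_eq_zero fun P' hP' => ?_
        rw [Finsupp.single_apply, if_neg]
        rintro rfl
        exact (Finset.mem_filter.1 hP').2 ⟨p, rfl⟩
      rw [this, zero_add]
    · have h2 : (Finsupp.mapDomain cst E₀) P = 0 := by
        rw [← Finsupp.notMem_support_iff]
        intro hmem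
        have := Finsupp.mapDomain_support hmem
        rw [Finset.mem_image] at this
        obtain ⟨p, -, rfl⟩ := this
        exact hP ⟨p, rfl⟩
      rw [h2, add_zero]
      by_cases hPs : P ∈ s
      · rw [Finset.sum_eq_single_of_mem P hPs, Finsupp.single_eq_same]
        · rcases hE01 P with h0 | h1
          · exact absurd h0 (Finsupp.mem_support_iff.1 (Finset.mem_filter.1 hPs).1)
          · exact h1
        · intro P' _ hne
          rw [Finsupp.single_apply, if_neg hne]
      · have h0 : E P = 0 := by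
          by_contra hne
          exact hPs (Finset.mem_filter.2 ⟨Finsupp.mem_support_iff.2 hne, hP⟩)
        rw [h0]
        symm
        refine Finset.sum_eq_zero fun P' hP' => ?_
        rw [Finsupp.single_apply, if_neg]
        rintro rfl
        exact hPs hP'

/-- the divisor relation in the shape of `spec_of_relation` from the orders of `φ` -/
theorem principal_of_ord (cst : Place k Fk → Place Ω FΩ) (m : ℕ) {d : ℕ}
    (Q' : Fin d → Place Ω FΩ) (E₀ B₀ : Divisor k Fk) (η' : Place Ω FΩ) (inf : Place k Fk)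
    (E B : Divisor Ω FΩ)
    (hE : E = ∑ j, Finsupp.single (Q' j) (1 : ℤ) + Finsupp.mapDomain cst E₀)
    (hB : B = Finsupp.mapDomain cst B₀) (φ : FΩ) (hφ0 : φ ≠ 0)
    (hφ : ∀ P : Place Ω FΩ, P.ord φ = (m : ℤ) * (E P - B P) -
      (Finsupp.single η' (1 : ℤ) - Finsupp.single (cst inf) (1 : ℤ) : Divisor Ω FΩ) P) :
    (m • (∑ j, Finsupp.single (Q' j) (1 : ℤ) + Finsupp.mapDomain cst (E₀ - B₀))
      - Finsupp.single η' (1 : ℤ) + Finsupp.single (cst inf) (1 : ℤ) : Divisor Ω FΩ) ∈
        Divisor.principal (K := Ω) (F := FΩ) := by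
  refine ⟨φ, hφ0, fun P => ?_⟩
  rw [hφ P, hE, hB, Finsupp.mapDomain_sub]
  simp only [Finsupp.add_apply, Finsupp.sub_apply, Finsupp.smul_apply, nsmul_eq_mul]
  ring

/-- the push-forward along a map of places preserves the degree (all places of degree one) -/
theorem degree_mapDomain_of_deg_one (hk : ∀ p : Place k Fk, p.deg = 1)
    (hΩ : ∀ P : Place Ω FΩ, P.deg = 1) (cst : Place k Fk → Place Ω FΩ) (W : Divisor k Fk) :
    Divisor.degree (Finsupp.mapDomain cst W) = Divisor.degree W := by
  have h : (Divisor.degree : Divisor Ω FΩ →+ ℤ).comp (Finsupp.mapDomain.addMonoidHom cst) =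
      (Divisor.degree : Divisor k Fk →+ ℤ) := by
    refine Finsupp.addHom_ext fun p n => ?_
    rw [AddMonoidHom.comp_apply, Finsupp.mapDomain.addMonoidHom_apply, Finsupp.mapDomain_single,
      Divisor.degree_single, Divisor.degree_single, hk, hΩ]
  exact DFunLike.congr_fun h W

/-- **the input of `spec_clause` from the division datum** (`DivAll.exists_division_data` on
`FΩ / Ω` with `S := range cst`): the non-constant points `Q'_j` (`j < d ≤ g`) of the reduced
divisor `E`, the constant divisor `C = E₀ - B₀` of degree `-d`, and the relation `hrel`. -/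
theorem exists_spec_input (hk : ∀ p : Place k Fk, p.deg = 1) (hΩ : ∀ P : Place Ω FΩ, P.deg = 1)
    (cst : Place k Fk → Place Ω FΩ) (hcst : Function.Injective cst) {g m : ℕ}
    (η' : Place Ω FΩ) (inf : Place k Fk) (B E : Divisor Ω FΩ) (φ : FΩ) (hφ0 : φ ≠ 0)
    (hBS : ∀ P, B P ≠ 0 → P ∈ Set.range cst) (hBdeg : Divisor.degree B = g)
    (hE0 : 0 ≤ E) (hE1 : ∀ P, E P ≤ 1) (hEdeg : Divisor.degree E = g)
    (hφ : ∀ P : Place Ω FΩ, P.ord φ = (m : ℤ) * (E P - B P) -
      (Finsupp.single η' (1 : ℤ) - Finsupp.single (cst inf) (1 : ℤ) : Divisor Ω FΩ) P) :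
    ∃ (d : ℕ) (Q' : Fin d → Place Ω FΩ) (C : Divisor k Fk), d ≤ g ∧
      Function.Injective Q' ∧ (∀ j, Q' j ∉ Set.range cst) ∧ (∀ j, E (Q' j) = 1) ∧
      (∀ P, E P ≠ 0 → P ∉ Set.range cst → ∃ j, Q' j = P) ∧
      Divisor.degree C + d = 0 ∧
      (m • (∑ j, Finsupp.single (Q' j) (1 : ℤ) + Finsupp.mapDomain cst C)
        - Finsupp.single η' (1 : ℤ) + Finsupp.single (cst inf) (1 : ℤ) : Divisor Ω FΩ) ∈
          Divisor.principal (K := Ω) (F := FΩ) := by
  classical
  obtain ⟨d, Q', E₀, hQinj, hQnc, hQE, hE₀, hEsplit⟩ := exists_split cst hcst E hE0 hE1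
  set B₀ : Divisor k Fk := Finsupp.comapDomain cst B hcst.injOn with hB₀
  have hB : B = Finsupp.mapDomain cst B₀ := by
    ext P
    by_cases hP : P ∈ Set.range cst
    · obtain ⟨p, rfl⟩ := hP
      rw [Finsupp.mapDomain_apply hcst, hB₀, Finsupp.comapDomain_apply]
    · have h1 : B P = 0 := by
        by_contra hne
        exact hP (hBS P hne)
      have h2 : (Finsupp.mapDomain cst B₀) P = 0 := by
        rw [← Finsupp.notMem_support_iff]
        intro hmem
        have := Finsupp.mapDomain_support hmem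
        rw [Finset.mem_image] at this
        obtain ⟨p, -, rfl⟩ := this
        exact hP ⟨p, rfl⟩
      rw [h1, h2]
  have hdE : (d : ℤ) + Divisor.degree E₀ = g := by
    have h1 := congrArg Divisor.degree hEsplit
    rw [map_add, map_sum, degree_mapDomain_of_deg_one hk hΩ, hEdeg] at h1
    rw [h1]
    congr 1
    rw [Finset.sum_congr rfl fun j _ => by
      rw [Divisor.degree_single, hΩ, Nat.cast_one, mul_one]]
    simp
  have hdB : Divisor.degree B₀ = g := by
    rw [← degree_mapDomain_of_deg_one hk hΩ cst B₀, ← hB, hBdeg]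
  have hE₀nn : 0 ≤ Divisor.degree E₀ := by
    have : Divisor.degree E₀ = E₀.sum fun v n => n * (v.deg : ℤ) := by
      simp [Divisor.degree, Finsupp.liftAddHom_apply]
    rw [this, Finsupp.sum]
    refine Finset.sum_nonneg fun p _ => ?_
    rw [hk p, Nat.cast_one, mul_one, hE₀ p]
    exact hE0 (cst p)
  refine ⟨d, Q', E₀ - B₀, by omega, hQinj, hQnc, hQE, ?_, ?_, ?_⟩
  · intro P hP hPc
    by_contra hcon
    push Not at hcon
    apply hP
    rw [hEsplit, Finsupp.add_apply, Finsupp.finsetSum_apply]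
    have h1 : ∑ j, (Finsupp.single (Q' j) (1 : ℤ)) P = 0 :=
      Finset.sum_eq_zero fun j _ => by rw [Finsupp.single_apply, if_neg (hcon j)]
    have h2 : (Finsupp.mapDomain cst E₀) P = 0 := by
      rw [← Finsupp.notMem_support_iff]
      intro hmem
      have := Finsupp.mapDomain_support hmem
      rw [Finset.mem_image] at this
      obtain ⟨p, -, rfl⟩ := this
      exact hPc ⟨p, rfl⟩
    rw [h1, h2, add_zero]
  · rw [map_sub, hdB]
    omega
  · exact principal_of_ord cst m Q' E₀ B₀ η' inf E B hEsplit hB φ hφ0 hφ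

end Split

section Clause

variable {k Ω Fk FΩ L : Type*} [Field k] [Field Ω] [Field Fk] [Field FΩ] [Field L]
  [Algebra k Ω] [Algebra k Fk] [Algebra Ω FΩ] [Algebra k FΩ] [IsScalarTower k Ω FΩ]
  [Algebra k L] [Algebra L Ω] [IsScalarTower k L Ω] {ι : Fk →ₐ[k] FΩ}

/-- **GENDIV's clause (SPEC)** on the constant-curve reduction: from the relation over `Ω`
(`hrel`), the dictionary (`Realizes`) and ONE local setup `(A, h, D, hD)` over every place `x` of
`L` (`hsetup` = `exists_localSetup`).  The constant class is `b₀ = [C + d inf]`, the exceptional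
set is empty. -/
theorem spec_clause [CharZero k] [IsAlgClosed k] [IsAlgClosed Ω] [HasPrincipalDivisors k L]
    (hc : ConstExt Ω ι) {g : ℕ} (hFk : IsCurveOfGenus k Fk g) (hFΩ : IsCurveOfGenus Ω FΩ g)
    (y₀ : Fk) [FiniteDimensional k⟮y₀⟯ Fk] (hdegL : ∀ x : Place k L, x.deg = 1)
    (hsetup : ∀ x : Place k L, ∃ (A : ValuationSubring Ω) (_ : Algebra k A)
      (_ : IsScalarTower k A Ω) (_ : Algebra (IsLocalRing.ResidueField A) Fk)
      (_ : IsScalarTower k (IsLocalRing.ResidueField A) Fk) (h : ConstData A ι)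
      (D : RedDatum A FΩ Fk), D.toGaussDatum = gaussDatum h ∧
        ∀ l : L, algebraMap L Ω l ∈ A ↔ l ∈ x.toValuationSubring)
    (inf : Place k Fk) (hdeg : ∀ P : Place k Fk, P.deg = 1) (m d : ℕ)
    (η : Fk →ₐ[k] L) (hη : η.toRingHom.IsIntegral) (hηfin : FiniteAlong k η)
    (σ : Fin d → Fk →ₐ[k] L) (hσ : ∀ j, (σ j).toRingHom.IsIntegral)
    (η' : Place Ω FΩ) (Q' : Fin d → Place Ω FΩ) (cst : Place k Fk → Place Ω FΩ)
    (C : Divisor k Fk) (hC : Divisor.degree C + d = 0)
    (hηR : Realizes ι (KPt.gen η hη : KPt k Fk L) η')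
    (hQR : ∀ j, Realizes ι (KPt.gen (σ j) (hσ j) : KPt k Fk L) (Q' j))
    (hcst : ∀ p, Realizes ι (KPt.const p : KPt k Fk L) (cst p))
    (hrel : (m • (∑ j, Finsupp.single (Q' j) (1 : ℤ) + Finsupp.mapDomain cst C)
      - Finsupp.single η' (1 : ℤ) + Finsupp.single (cst inf) (1 : ℤ) : Divisor Ω FΩ) ∈
        Divisor.principal (K := Ω) (F := FΩ)) :
    ∀ P : Place k Fk, ∃ (x : Place k L) (Q : Fin d → Place k Fk),
      LiesOver η x P ∧ (∀ j, LiesOver (σ j) x (Q j)) ∧
      m • (Pic0.mk (constClass inf hdeg d C hC) + ∑ j, Pic0.mk (ptDiv inf hdeg (Q j))) =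
        Pic0.mk (ptDiv inf hdeg P) := by
  haveI := hFΩ.hasPrincipalDivisors
  haveI := hFk.hasPrincipalDivisors
  haveI : RatPlaces Ω FΩ := ⟨hFΩ.deg_eq_one⟩
  have hdegι : ∀ f : Fk, Divisor.degree (polesOf (K := Ω) (ι f)) =
      Divisor.degree (polesOf (K := k) f) := fun f => CanDiff.degree_polesOf_iota_all hc y₀ f
  refine spec_of_relation ι inf hdeg m d η hη σ hσ η' Q' cst C hC hηR hQR hcst hrel ?_ ?_
  · intro x
    obtain ⟨A, i1, i2, i3, i4, h, D, hD, hx⟩ := hsetup x
    have hFk' := isCurveOfGenus_res h hFk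
    haveI := hFk'.hasPrincipalDivisors
    haveI : RatPlaces (IsLocalRing.ResidueField A) Fk := ⟨hFk'.deg_eq_one⟩
    exact ⟨specPlace h D, fun E hE => mapDomain_specPlace_mem_principal h D hE,
      fun S S' hS => specPlace_realizes hc hD y₀ hdegι x hx S S' hS⟩
  · intro P
    exact exists_place_over hdegL η hη hηfin P (hdeg P)

end Clause

end Fermat.Agent.S17lib.GenDivSpec
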