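/-
S17lib / GenDiv / Oracle  (helper1) — Project G (S17), block DEG: the local relation (P2) at EVERY
place `x` of `L`, in the constant-extension setting.

`LocalSetup.exists_localSetup` (the valuation ring `A_x`, the reduction datum `D_x`, the constant
lift) fed into helper8's `P2loc.localP2_of_realizes`:  no valuation ring, no reduction datum and no
instance plumbing is left in the statement (`localP2_at`).
-/
import Mathlib
import Fermat.Agent.S17lib.GenDiv.LocalSetup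
import Fermat.Agent.S17lib.P2loc.Wrap

set_option autoImplicit false
set_option linter.unusedSectionVars false
set_option linter.style.haveILetI false

noncomputable section

namespace Fermat.Agent.S17lib.LS

open AlgebraicCurve IsLocalRing IntermediateField
open Fermat.Agent.ProgramR Fermat.Agent.ProgramR.RHLocal Fermat.Agent.S18lib
open Fermat.Agent.S15lib.Weil Fermat.Agent.S17lib.CCR Fermat.Agent.S17lib.DegChain

variable {k Fk Ω FΩ L : Type*} [Field k] [Field Fk] [Field Ω] [Field FΩ] [Field L]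
  [Algebra k Ω] [Algebra k Fk] [Algebra Ω FΩ] [Algebra k FΩ] [IsScalarTower k Ω FΩ]
  [Algebra k L] [Algebra L Ω] [IsScalarTower k L Ω]

/-- **the local relation (P2) at a place `x` of `L` of degree one**, for a constant field
extension `ι : Fk → FΩ` of a curve of genus `g` (`Ω ⊇ L ⊇ k`, `Ω / L` algebraic). -/
theorem localP2_at [CharZero k] [IsAlgClosed k] [IsAlgClosed Ω] [Algebra.IsAlgebraic L Ω]
    [RatPlaces Ω FΩ]
    {ι : Fk →ₐ[k] FΩ} (hι : ConstExt Ω ι) {g : ℕ} (hFk : IsCurveOfGenus k Fk g)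
    {y₀ : Fk} (hy₀ : Transcendental k y₀) [FiniteDimensional k⟮y₀⟯ Fk]
    (hrat : ∀ P : Place k Fk, RatRes k P.toValuationSubring)
    (x : Place k L) (hx : x.deg = 1)
    {I : Type*} [Fintype I] (pts : I → KPt k Fk L) (pl : I → Place Ω FΩ)
    (hpl : Function.Injective pl) (hreal : ∀ i, Realizes ι (pts i) (pl i))
    (n : I → ℤ) {φ : FΩ} (hφ : φ ≠ 0) (hdiv₁ : ∀ i, (pl i).ord φ = n i)
    (hdiv₂ : ∀ P : Place Ω FΩ, (∀ i, pl i ≠ P) → P.ord φ = 0)
    (R : I) {σ : Fk →ₐ[k] L} {hσ : σ.toRingHom.IsIntegral} (hR : pts R = KPt.gen σ hσ)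
    (r₀ : Place k Fk) (R₀' : Place Ω FΩ) (hr₀ : Realizes ι (KPt.const r₀ : KPt k Fk L) R₀')
    (hR₀ : ∀ i, pl i ≠ R₀')
    {τ : Fk} (hτ : ∀ c : k, τ ≠ algebraMap k Fk c) (Wτ : Divisor k Fk)
    (hW₁ : ∀ (p : Place k Fk) (c : k), 0 < p.ord (τ - algebraMap k Fk c) →
      Wτ p = p.ord (τ - algebraMap k Fk c) - 1)
    (hW₂ : ∀ p : Place k Fk, p.ord τ < 0 → Wτ p = p.ord τ - 1)
    (lam lam₀ : L)
    (hlam : algebraMap L Ω lam = val (pl R) (φ * (ι τ - cΩ Ω FΩ (σ τ)) ^ (-(n R))))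
    (hlam₀ : algebraMap L Ω lam₀ = val R₀' φ) :
    LocalP2 hrat x pts n R r₀ Wτ lam lam₀ := by
  obtain ⟨A, i1, i2, i3, i4, h, D, hD, hcomap, hF⟩ := exists_localSetup hι hFk hy₀ x hx
  have hFk' := isCurveOfGenus_res h hFk
  haveI := hF.hasPrincipalDivisors
  haveI := hFk.hasPrincipalDivisors
  haveI := hFk'.hasPrincipalDivisors
  haveI : RatPlaces (IsLocalRing.ResidueField A) Fk := ⟨hFk'.deg_eq_one⟩
  haveI : CharZero (IsLocalRing.ResidueField A) :=
    charZero_of_injective_algebraMap (algebraMap k (IsLocalRing.ResidueField A)).injective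
  have hdeg := CanDiff.degree_polesOf_iota_all hι y₀
  have hk' : ∀ c' : IsLocalRing.ResidueField A, ∃ c : k,
      algebraMap (IsLocalRing.ResidueField A) Fk c' = algebraMap k Fk c := by
    intro c'
    obtain ⟨c, rfl⟩ := h.res_surj c'
    exact ⟨c, (IsScalarTower.algebraMap_apply k (IsLocalRing.ResidueField A) Fk c).symm⟩
  exact P2loc.localP2_of_realizes hrat (constLift8 h hD hdeg) (constLift8_ι h hD hdeg) x
    (mem_iff hcomap) hk' pts pl hpl hreal n hφ hdiv₁ hdiv₂ R hR r₀ R₀' hr₀ hR₀ hτ Wτ hW₁ hW₂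
    lam lam₀ hlam hlam₀

/-- the same, the divisor of `φ` given in sum form -/
theorem localP2_at_sum [CharZero k] [IsAlgClosed k] [IsAlgClosed Ω] [Algebra.IsAlgebraic L Ω]
    [RatPlaces Ω FΩ]
    {ι : Fk →ₐ[k] FΩ} (hι : ConstExt Ω ι) {g : ℕ} (hFk : IsCurveOfGenus k Fk g)
    {y₀ : Fk} (hy₀ : Transcendental k y₀) [FiniteDimensional k⟮y₀⟯ Fk]
    (hrat : ∀ P : Place k Fk, RatRes k P.toValuationSubring)
    (x : Place k L) (hx : x.deg = 1)
    {I : Type*} [Fintype I] [DecidableEq (Place Ω FΩ)] (pts : I → KPt k Fk L)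
    (pl : I → Place Ω FΩ)
    (hpl : Function.Injective pl) (hreal : ∀ i, Realizes ι (pts i) (pl i))
    (n : I → ℤ) {φ : FΩ} (hφ : φ ≠ 0)
    (hdiv : ∀ P : Place Ω FΩ, P.ord φ = ∑ i, if pl i = P then n i else 0)
    (R : I) {σ : Fk →ₐ[k] L} {hσ : σ.toRingHom.IsIntegral} (hR : pts R = KPt.gen σ hσ)
    (r₀ : Place k Fk) (R₀' : Place Ω FΩ) (hr₀ : Realizes ι (KPt.const r₀ : KPt k Fk L) R₀')
    (hR₀ : R₀' ∉ Set.range pl)
    {τ : Fk} (hτ : ∀ c : k, τ ≠ algebraMap k Fk c) (Wτ : Divisor k Fk)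
    (hW₁ : ∀ (p : Place k Fk) (c : k), 0 < p.ord (τ - algebraMap k Fk c) →
      Wτ p = p.ord (τ - algebraMap k Fk c) - 1)
    (hW₂ : ∀ p : Place k Fk, p.ord τ < 0 → Wτ p = p.ord τ - 1)
    (lam lam₀ : L)
    (hlam : algebraMap L Ω lam = val (pl R) (φ * (ι τ - cΩ Ω FΩ (σ τ)) ^ (-(n R))))
    (hlam₀ : algebraMap L Ω lam₀ = val R₀' φ) :
    LocalP2 hrat x pts n R r₀ Wτ lam lam₀ := by
  refine localP2_at hι hFk hy₀ hrat x hx pts pl hpl hreal n hφ ?_ ?_ R hR r₀ R₀' hr₀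
    (fun i h => hR₀ ⟨i, h⟩) hτ Wτ hW₁ hW₂ lam lam₀ hlam hlam₀
  · intro i
    rw [hdiv, Finset.sum_eq_single i]
    · rw [if_pos rfl]
    · intro j _ hji
      rw [if_neg fun h => hji (hpl h)]
    · intro h
      exact absurd (Finset.mem_univ i) h
  · intro P hP
    rw [hdiv]
    exact Finset.sum_eq_zero fun i _ => if_neg (hP i)

/-- a transcendental element is not a constant -/
theorem ne_algebraMap_of_transcendental {k Fk : Type*} [Field k] [Field Fk] [Algebra k Fk]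
    {y₀ : Fk} (hy₀ : Transcendental k y₀) (c : k) : y₀ ≠ algebraMap k Fk c := by
  rintro rfl
  exact hy₀ (isAlgebraic_algebraMap c)

end Fermat.Agent.S17lib.LS
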