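/-
S17lib / GenDiv / OracleP2  (helper1) — Project G (S17), block DEG: helper6's `DegChain.P2Oracle`
at every place `x` of `L` (the hypothesis `horacle` of `DegChain.deg_half`), from `LS.localP2_at`.
-/
import Mathlib
import Fermat.Agent.S17lib.GenDiv.Oracle
import Fermat.Agent.S17lib.DegChain.Half

set_option autoImplicit false
set_option linter.unusedSectionVars false
set_option linter.style.haveILetI false

noncomputable section

namespace Fermat.Agent.S17lib.LS

open AlgebraicCurve IsLocalRing IntermediateField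
open Fermat.Agent.ProgramR Fermat.Agent.ProgramR.RHLocal Fermat.Agent.S18lib
open Fermat.Agent.S15lib.Weil Fermat.Agent.S17lib.CCR Fermat.Agent.S17lib.DegChain

variable {k Fk Ω FΩ L : Type*} [Field k] [Field Fk] [Field Ω] [Field FΩ] [Field L]
  [Algebra k Ω] [Algebra k Fk] [Algebra Ω FΩ] [Algebra k FΩ] [IsScalarTower k Ω FΩ]
  [Algebra k L] [Algebra L Ω] [IsScalarTower k L Ω]

/-- **the local (P2) oracle at every place of `L` of degree one**, for a constant field extension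
`ι : Fk → FΩ` of a curve of genus `g` (`Ω ⊇ L ⊇ k`, `Ω / L` algebraic), an auxiliary non-constant
function `τ` and a divisor `Wτ` with the local shape of `div (dτ)`. -/
theorem p2Oracle_at [CharZero k] [IsAlgClosed k] [IsAlgClosed Ω] [Algebra.IsAlgebraic L Ω]
    [RatPlaces Ω FΩ]
    {ι : Fk →ₐ[k] FΩ} (hι : ConstExt Ω ι) {g : ℕ} (hFk : IsCurveOfGenus k Fk g)
    {y₀ : Fk} (hy₀ : Transcendental k y₀) [FiniteDimensional k⟮y₀⟯ Fk]
    (hrat : ∀ P : Place k Fk, RatRes k P.toValuationSubring)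
    (x : Place k L) (hx : x.deg = 1) {φ : FΩ} (hφ : φ ≠ 0)
    {τ : Fk} (hτ : ∀ c : k, τ ≠ algebraMap k Fk c) (Wτ : Divisor k Fk)
    (hW₁ : ∀ (p : Place k Fk) (c : k), 0 < p.ord (τ - algebraMap k Fk c) →
      Wτ p = p.ord (τ - algebraMap k Fk c) - 1)
    (hW₂ : ∀ p : Place k Fk, p.ord τ < 0 → Wτ p = p.ord τ - 1)
    (I : Type*) [Fintype I] :
    P2Oracle Ω ι hrat x I φ τ Wτ :=
  fun pts pl hpl hreal n h1 h2 R _ _ hR r₀ R₀' hr₀ hR₀ lam lam₀ hlam hlam₀ =>
    localP2_at hι hFk hy₀ hrat x hx pts pl hpl hreal n hφ h1 h2 R hR r₀ R₀' hr₀ hR₀ hτ Wτ hW₁ hW₂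
      lam lam₀ hlam hlam₀

end Fermat.Agent.S17lib.LS
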