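/-
S17lib / GenDiv / DegClause  (helper1) — Project G (S17): GENDIV's clause (DEG) in the CONTRACT
shape of `GenDivData.lean` / `GenDivFinal.gendiv_generic` (hypothesis `hDEG`):

  `OmegaData` (F1) + `LData` (compositum) + `DegRat` (rationality of the leading coefficients)
    ⊢ `m ^ 2 * ∑ j, finrankAlong k (σ j) ≤ g * finrankAlong k η`,

from helper6's abstract `DegChain.deg_half`, the local oracle `LS.p2Oracle_at` (helper8's wrapper on
the local setups) and helper9's canonical divisor `CanDiff.exists_canonical_apply` (`τ := y₀`).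
-/
import Mathlib
import Fermat.Agent.S17lib.GenDivData
import Fermat.Agent.S17lib.GenDiv.OracleP2
import Fermat.Agent.S17lib.CanDiff.Canonical
import Fermat.Agent.S17lib.CCR.Header

set_option autoImplicit false
set_option linter.unusedSectionVars false
set_option linter.style.haveILetI false

noncomputable section

namespace Fermat.Agent.S17lib.LS

open AlgebraicCurve IsLocalRing IntermediateField
open Fermat.Agent.ProgramR Fermat.Agent.ProgramR.RHLocal Fermat.Agent.S18lib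
open Fermat.Agent.S15lib.Weil Fermat.Agent.S17lib.CCR Fermat.Agent.S17lib.DegChain

variable {k Ω Fk FΩ : Type*} [Field k] [Field Ω] [Field Fk] [Field FΩ]
  [Algebra k Ω] [Algebra k Fk] [Algebra Ω FΩ] [Algebra k FΩ] [IsScalarTower k Ω FΩ]
  [Algebra Fk Ω] [IsScalarTower k Fk Ω]

/-- **GENDIV's clause (DEG)** for a constant field extension, in the contract shape. -/
theorem deg_clause [CharZero k] [IsAlgClosed k] [IsAlgClosed Ω] [Algebra.IsAlgebraic Fk Ω]
    [RatPlaces Ω FΩ]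
    {ι : Fk →ₐ[k] FΩ} (hc : ConstExt Ω ι) {g : ℕ} (hFk : IsCurveOfGenus k Fk g)
    (hFΩ : IsCurveOfGenus Ω FΩ g)
    {y₀ : Fk} (hy₀ : Transcendental k y₀) [FiniteDimensional k⟮y₀⟯ Fk]
    {inf : Place k Fk} {m : ℕ}
    {cst : Place k Fk → Place Ω FΩ} {η' : Place Ω FΩ} {d : ℕ} {Q' : Fin d → Place Ω FΩ}
    {σ' : Fin d → Fk →ₐ[k] Ω} {B₀ E₀ : Divisor k Fk} {φ : FΩ}
    (hΩ : OmegaData ι inf g m cst η' d Q' σ' B₀ E₀ φ)
    (hgen : ∀ P : Place Ω FΩ, P ∉ Set.range cst → ∀ f : Fk, f ≠ 0 → P.ord (ι f) = 0)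
    {r₀ : Place k Fk} (hB : B₀ r₀ = 0) (hE : E₀ r₀ = 0) (hinf : r₀ ≠ inf)
    (L : IntermediateField k Ω) (η : Fk →ₐ[k] L) (σ : Fin d → Fk →ₐ[k] L)
    (hL : LData σ' y₀ L η σ) (hR : DegRat ι m cst η' Q' σ' φ y₀ r₀ L) :
    m ^ 2 * ∑ j, finrankAlong k (σ j) ≤ g * finrankAlong k η := by
  classical
  -- the `L`-package
  haveI := hL.fd
  haveI : HasPrincipalDivisors k L := FF.hasPrincipalDivisors (η y₀) hL.transc
  have hdegL : ∀ x : Place k L, x.deg = 1 := fun x => FF.deg_eq_one (η y₀) x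
  haveI : Algebra.IsAlgebraic L Ω := isAlgebraic_intermediateField L fun f => by
    rw [← hL.eta_coe f]; exact (η f).2
  have hrat : ∀ P : Place k Fk, RatRes k P.toValuationSubring := fun P =>
    isRationalPlace_of_deg_eq_one P (hFk.deg_eq_one P)
  -- the canonical divisor
  haveI : Algebra.IsSeparable k⟮y₀⟯ Fk := Algebra.IsAlgebraic.isSeparable_of_perfectField
  obtain ⟨W, hWdeg, hWrank, hW₁, hW₂⟩ := CanDiff.exists_canonical_apply k hy₀ hFk
  haveI := hFk.finiteDimensional W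
  let b := Module.finBasisOfFinrankEq k (riemannRochSpace W) hWrank
  have hli : LinearIndependent k fun i => ((b i : riemannRochSpace W) : Fk) :=
    b.linearIndependent.map' (riemannRochSpace W).subtype (Submodule.ker_subtype _)
  -- the dictionary
  have hσint : ∀ j, (σ j).toRingHom.IsIntegral := fun j => (hL.sigma_fin j).2.2
  have hQR : ∀ j, Realizes ι (KPt.gen (σ j) (hσint j) : KPt k Fk L) (Q' j) := by
    intro j f
    have h1 : cΩ Ω FΩ (σ j f) = algebraMap Ω FΩ (σ' j f) := by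
      show algebraMap Ω FΩ (algebraMap L Ω (σ j f)) = _
      rw [← hL.sigma_coe j f]; rfl
    rw [h1]
    exact hΩ.Q_val j f
  have hηR : Realizes ι (KPt.gen η hL.eta_int : KPt k Fk L) η' := by
    intro f
    have h1 : cΩ Ω FΩ (η f) = algebraMap Ω FΩ (algebraMap Fk Ω f) := by
      show algebraMap Ω FΩ (algebraMap L Ω (η f)) = _
      rw [← hL.eta_coe f]; rfl
    rw [h1]
    exact hΩ.eta_val f
  have hσinj : Function.Injective σ := by
    intro i j hij
    apply hΩ.sigma_inj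
    ext f
    rw [← hL.sigma_coe i f, ← hL.sigma_coe j f, hij]
  have hση : ∀ j, σ j ≠ η := by
    intro j hj
    apply hΩ.sigma_ne j
    ext f
    rw [← hL.sigma_coe j f, hj, hL.eta_coe f]
    rfl
  have hτ := ne_algebraMap_of_transcendental hy₀
  -- the rationality clauses
  have hlam : ∀ j, ∃ lam : L,
      algebraMap L Ω lam = val (Q' j) (φ * (ι y₀ - cΩ Ω FΩ (σ j y₀)) ^ (-(m : ℤ))) := by
    intro j
    obtain ⟨lam, hl⟩ := hR.lamQ j
    refine ⟨lam, ?_⟩
    have h1 : cΩ Ω FΩ (σ j y₀) = algebraMap Ω FΩ (σ' j y₀) := by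
      show algebraMap Ω FΩ (algebraMap L Ω (σ j y₀)) = _
      rw [← hL.sigma_coe j y₀]; rfl
    rw [h1]
    exact hl
  have hlamη : ∃ lam : L, algebraMap L Ω lam = val η' (φ * (ι y₀ - cΩ Ω FΩ (η y₀))) := by
    obtain ⟨lam, hl⟩ := hR.lamEta
    refine ⟨lam, ?_⟩
    have h1 : cΩ Ω FΩ (η y₀) = algebraMap Ω FΩ (algebraMap Fk Ω y₀) := by
      show algebraMap Ω FΩ (algebraMap L Ω (η y₀)) = _
      rw [← hL.eta_coe y₀]; rfl
    rw [h1]
    rw [zpow_one] at hl
    exact hl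
  have hlam₀ : ∃ lam₀ : L, algebraMap L Ω lam₀ = val (cst r₀) φ := hR.lam₀
  have key := deg_half ι hrat hdegL hFk hFΩ m σ hσint (fun j => (hL.sigma_fin j).1) hσinj η
    hL.eta_int hL.eta_fin hση cst hΩ.cst_inj (fun p f => hΩ.cst_ord p f) hgen Q' hΩ.Q_inj
    hΩ.Q_nonconst hQR η' hηR hΩ.eta_nonconst hΩ.Q_ne_eta E₀ B₀ inf hΩ.E_nonneg hΩ.E_le_one
    hΩ.degE hΩ.degB hΩ.E_off_B hΩ.E_inf hΩ.lE φ hΩ.ord_phi y₀ W hWdeg r₀ hE hB hinf hlam hlamη
    hlam₀
    (fun x Cst => p2Oracle_at hc hFk hy₀ hrat x (hdegL x) hΩ.phi_ne hτ W hW₁ hW₂ _)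
    W hWdeg (fun i => ((b i : riemannRochSpace W) : Fk)) (fun i => (b i).2) hli
    (fun v hv => hc.ld_family hv)
  exact_mod_cast key

end Fermat.Agent.S17lib.LS
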