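/-
S17lib / GenDiv / LocalSetup  (helper1) — Project G (S17): the LOCAL SETUP at a place `x` of `L`.

`k ⊂ L ⊂ Ω` (`k`, `Ω` algebraically closed of characteristic `0`, `Ω / L` algebraic),
`ι : Fk →ₐ[k] FΩ` a constant field extension (helper4's `ConstExt Ω ι`), `Fk / k` a curve of genus
`g`.  For every place `x` of `L` of degree one there are

* a valuation subring `A` of `Ω` with `A ∩ L = 𝒪_x`, `k ⊂ A`, residue field `k` (helper2's `Chev`),
* the instance package `Algebra k A`, `IsScalarTower k A Ω`, `Algebra (ResidueField A) Fk`,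
  `IsScalarTower k (ResidueField A) Fk` (helper3's `ValExt.algebraOfMem` + `resAlgebra` below),
* `h : ConstData A ι` and a reduction datum `D : RedDatum A FΩ Fk` extending the Gauss datum
  (helper4's `ConstExt.exists_redDatum'`)

(`exists_localSetup`).  On such a setup: the `ConstLift`s of helper8 / helper9 (`constLift8`),
the descent of the valuation of `A` to `ord_x` (`ord_eq_of_eq_unit_mul`, …) and the dictionary
`Realizes ι S S' → specPlace h D S' = S.red x` (`specPlace_eq_red`).
-/
import Mathlib
import Fermat.Agent.S17lib.ValExt.Chevalley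
import Fermat.Agent.S17lib.Chev.Place
import Fermat.Agent.S17lib.CCR.Api
import Fermat.Agent.S17lib.CCR.Genus
import Fermat.Agent.S17lib.CCR.Modular
import Fermat.Agent.S17lib.CanDiff.ConstK
import Fermat.Agent.S17lib.P2loc.Const
import Fermat.Agent.S17lib.DegChain.Dict

set_option autoImplicit false
set_option linter.unusedSectionVars false
set_option linter.style.haveILetI false

noncomputable section

namespace Fermat.Agent.S17lib.LS

open AlgebraicCurve IsLocalRing IntermediateField
open Fermat.Agent.ProgramR Fermat.Agent.S18lib Fermat.Agent.S15lib.Weil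
open Fermat.Agent.S17lib.CCR

/-! ### the `ResidueField A`-algebra structure of a `k`-algebra -/

section ResAlgebra

variable {k Ω : Type*} [Field k] [Field Ω] [Algebra k Ω]

/-- `k ≃ ResidueField A` for a valuation ring over `k` with residue field `k` -/
def resEquivOf (A : ValuationSubring Ω) [Algebra k A]
    (hres : Function.Surjective (algebraMap k (IsLocalRing.ResidueField A))) :
    k ≃+* IsLocalRing.ResidueField A :=
  RingEquiv.ofBijective (algebraMap k (IsLocalRing.ResidueField A))
    ⟨(algebraMap k (IsLocalRing.ResidueField A)).injective, hres⟩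

@[simp] theorem resEquivOf_apply (A : ValuationSubring Ω) [Algebra k A]
    (hres : Function.Surjective (algebraMap k (IsLocalRing.ResidueField A))) (c : k) :
    resEquivOf A hres c = algebraMap k (IsLocalRing.ResidueField A) c := rfl

/-- the `ResidueField A`-algebra structure of a `k`-algebra `Fk` (through `k ≃ ResidueField A`) -/
@[reducible] def resAlgebra (A : ValuationSubring Ω) [Algebra k A]
    (hres : Function.Surjective (algebraMap k (IsLocalRing.ResidueField A)))
    (Fk : Type*) [Field Fk] [Algebra k Fk] : Algebra (IsLocalRing.ResidueField A) Fk :=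
  ((algebraMap k Fk).comp (resEquivOf A hres).symm.toRingHom).toAlgebra

theorem resTower (A : ValuationSubring Ω) [Algebra k A]
    (hres : Function.Surjective (algebraMap k (IsLocalRing.ResidueField A)))
    (Fk : Type*) [Field Fk] [Algebra k Fk] :
    letI := resAlgebra A hres Fk
    IsScalarTower k (IsLocalRing.ResidueField A) Fk := by
  letI := resAlgebra A hres Fk
  refine IsScalarTower.of_algebraMap_eq fun c => ?_
  show algebraMap k Fk c =
    algebraMap k Fk ((resEquivOf A hres).symm (algebraMap k (IsLocalRing.ResidueField A) c))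
  rw [← resEquivOf_apply A hres c, RingEquiv.symm_apply_apply]

end ResAlgebra

/-! ### existence of the local setup -/

section Exists

variable {k Fk Ω FΩ L : Type*} [Field k] [Field Fk] [Field Ω] [Field FΩ] [Field L]
  [Algebra k Ω] [Algebra k Fk] [Algebra Ω FΩ] [Algebra k FΩ] [IsScalarTower k Ω FΩ]
  [Algebra k L] [Algebra L Ω] [IsScalarTower k L Ω]

/-- **the local setup from a valuation ring** `A ⊂ Ω` over `k` with residue field `k` -/
theorem exists_setup_of_valuationSubring [CharZero k] [IsAlgClosed k] [IsAlgClosed Ω]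
    {ι : Fk →ₐ[k] FΩ} (hι : ConstExt Ω ι) {g : ℕ} (hFk : IsCurveOfGenus k Fk g)
    {y₀ : Fk} (hy₀ : Transcendental k y₀) [FiniteDimensional k⟮y₀⟯ Fk]
    (A : ValuationSubring Ω) (hk : ∀ c : k, algebraMap k Ω c ∈ A)
    (hresA : ∀ a ∈ A, ∃ c : k, a - algebraMap k Ω c ∈ A.nonunits) :
    ∃ (_ : Algebra k A) (_ : IsScalarTower k A Ω)
      (_ : Algebra (IsLocalRing.ResidueField A) Fk)
      (_ : IsScalarTower k (IsLocalRing.ResidueField A) Fk)
      (h : ConstData A ι) (D : RedDatum A FΩ Fk),
      D.toGaussDatum = gaussDatum h ∧ IsCurveOfGenus Ω FΩ g := by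
  letI := ValExt.algebraOfMem A hk
  haveI := ValExt.isScalarTower_algebraOfMem A hk
  have hres := ValExt.residue_surjective_algebraOfMem A hk hresA
  letI := resAlgebra A hres Fk
  haveI := resTower A hres Fk
  obtain ⟨hF, D, hD⟩ := hι.exists_redDatum' A hres hFk hy₀
  exact ⟨inferInstance, inferInstance, inferInstance, inferInstance, hι.constData A hres, D, hD, hF⟩

/-- **the local setup at a place `x` of `L` of degree one** -/
theorem exists_localSetup [CharZero k] [IsAlgClosed k] [IsAlgClosed Ω] [Algebra.IsAlgebraic L Ω]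
    {ι : Fk →ₐ[k] FΩ} (hι : ConstExt Ω ι) {g : ℕ} (hFk : IsCurveOfGenus k Fk g)
    {y₀ : Fk} (hy₀ : Transcendental k y₀) [FiniteDimensional k⟮y₀⟯ Fk]
    (x : Place k L) (hx : x.deg = 1) :
    ∃ (A : ValuationSubring Ω) (_ : Algebra k A) (_ : IsScalarTower k A Ω)
      (_ : Algebra (IsLocalRing.ResidueField A) Fk)
      (_ : IsScalarTower k (IsLocalRing.ResidueField A) Fk)
      (h : ConstData A ι) (D : RedDatum A FΩ Fk),
      D.toGaussDatum = gaussDatum h ∧ A.comap (algebraMap L Ω) = x.toValuationSubring ∧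
        IsCurveOfGenus Ω FΩ g := by
  obtain ⟨A, hcomap, hk, hresA⟩ := Chev.exists_valuationSubring_over_place (Ω := Ω) x hx
  obtain ⟨i1, i2, i3, i4, h, D, hD, hF⟩ :=
    exists_setup_of_valuationSubring hι hFk hy₀ A hk hresA
  exact ⟨A, i1, i2, i3, i4, h, D, hD, hcomap, hF⟩

/-- the same in membership form (`hsetup` of helper2's `GenDivSpec.spec_clause`) -/
theorem exists_localSetup' [CharZero k] [IsAlgClosed k] [IsAlgClosed Ω] [Algebra.IsAlgebraic L Ω]
    {ι : Fk →ₐ[k] FΩ} (hι : ConstExt Ω ι) {g : ℕ} (hFk : IsCurveOfGenus k Fk g)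
    {y₀ : Fk} (hy₀ : Transcendental k y₀) [FiniteDimensional k⟮y₀⟯ Fk]
    (x : Place k L) (hx : x.deg = 1) :
    ∃ (A : ValuationSubring Ω) (_ : Algebra k A) (_ : IsScalarTower k A Ω)
      (_ : Algebra (IsLocalRing.ResidueField A) Fk)
      (_ : IsScalarTower k (IsLocalRing.ResidueField A) Fk)
      (h : ConstData A ι) (D : RedDatum A FΩ Fk),
      D.toGaussDatum = gaussDatum h ∧
        ∀ l : L, algebraMap L Ω l ∈ A ↔ l ∈ x.toValuationSubring := by
  obtain ⟨A, i1, i2, i3, i4, h, D, hD, hcomap, -⟩ := exists_localSetup hι hFk hy₀ x hx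
  refine ⟨A, i1, i2, i3, i4, h, D, hD, fun l => ?_⟩
  rw [← hcomap, ValuationSubring.mem_comap]

end Exists

/-! ### descent of the valuation of `A` to `ord_x` -/

section Descent

variable {k Ω L : Type*} [Field k] [Field Ω] [Field L] [Algebra k L] [Algebra L Ω]
  {A : ValuationSubring Ω} {x : Place k L}
  (hcomap : A.comap (algebraMap L Ω) = x.toValuationSubring)

include hcomap

theorem mem_iff (a : L) : algebraMap L Ω a ∈ A ↔ a ∈ x.toValuationSubring := by
  rw [← hcomap, ValuationSubring.mem_comap]

theorem valuation_le_one_iff (a : L) : A.valuation (algebraMap L Ω a) ≤ 1 ↔ 0 ≤ x.ord a := by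
  rw [A.valuation_le_one_iff, mem_iff hcomap, FF.mem_iff_ord_nonneg]

theorem valuation_eq_one_iff {a : L} (ha : a ≠ 0) :
    A.valuation (algebraMap L Ω a) = 1 ↔ x.ord a = 0 := by
  have h1 := valuation_le_one_iff hcomap a
  have h2 := valuation_le_one_iff hcomap a⁻¹
  rw [map_inv₀, map_inv₀, x.ord_inv] at h2
  have h0 : A.valuation (algebraMap L Ω a) ≠ 0 :=
    (Valuation.ne_zero_iff _).2 ((map_ne_zero _).2 ha)
  rw [inv_le_one₀ (zero_lt_iff.2 h0)] at h2
  constructor
  · intro h
    have e1 := h1.1 h.le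
    have e2 := h2.1 h.ge
    omega
  · intro h
    exact le_antisymm (h1.2 h.ge) (h2.2 (by omega))

theorem valuation_lt_one_iff {a : L} (ha : a ≠ 0) :
    A.valuation (algebraMap L Ω a) < 1 ↔ 0 < x.ord a := by
  have h1 := valuation_le_one_iff hcomap a
  have h2 := valuation_eq_one_iff hcomap ha
  rw [lt_iff_le_and_ne, h1, Ne, h2]
  omega

/-- **descent**: two elements of `L` which differ by a unit of `A` have the same order at `x` -/
theorem ord_eq_of_eq_unit_mul {a b : L} (ha : a ≠ 0) (hb : b ≠ 0) {ε : Ω}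
    (hε : A.valuation ε = 1) (h : algebraMap L Ω a = ε * algebraMap L Ω b) :
    x.ord a = x.ord b := by
  have hb' : algebraMap L Ω b ≠ 0 := (map_ne_zero _).2 hb
  have hε' : ε = algebraMap L Ω (a * b⁻¹) := by
    rw [map_mul, map_inv₀, h, mul_assoc, mul_inv_cancel₀ hb', mul_one]
  rw [hε'] at hε
  have := (valuation_eq_one_iff hcomap (mul_ne_zero ha (inv_ne_zero hb))).1 hε
  rw [x.ord_mul ha (inv_ne_zero hb), x.ord_inv] at this
  omega

end Descent

/-! ### consumers: `ConstLift`, the dictionary -/

section Consumers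

open Fermat.Agent.S17lib.DegChain Fermat.Agent.S17lib.P2loc
open Fermat.Agent.ProgramR.RHLocal

variable {k Fk Ω FΩ L : Type*} [Field k] [Field Fk] [Field Ω] [Field FΩ] [Field L]
  [Algebra k Ω] [Algebra k Fk] [Algebra Ω FΩ] [Algebra k FΩ] [IsScalarTower k Ω FΩ]
  [Algebra k L] [Algebra L Ω] [IsScalarTower k L Ω]

variable {A : ValuationSubring Ω} [Algebra k A] [IsScalarTower k A Ω]
  [Algebra (IsLocalRing.ResidueField A) Fk] [IsScalarTower k (IsLocalRing.ResidueField A) Fk]
  {ι : Fk →ₐ[k] FΩ}

variable [HasPrincipalDivisors Ω FΩ] [HasPrincipalDivisors k Fk]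
  [HasPrincipalDivisors (IsLocalRing.ResidueField A) Fk]
  [RatPlaces Ω FΩ] [RatPlaces (IsLocalRing.ResidueField A) Fk]

variable (h : ConstData A ι) {D : RedDatum A FΩ Fk} (hD : D.toGaussDatum = gaussDatum h)
  (hdeg : ∀ f : Fk, Divisor.degree (polesOf (K := Ω) (ι f)) = Divisor.degree (polesOf (K := k) f))

include hD hdeg in
/-- helper8's `ConstLift` for `ι` -/
def constLift8 : P2loc.ConstLift D where
  ι := (ι : Fk →+* FΩ)
  mem := fun f => iota_mem_O hD f
  red := fun f => redF_iota hD f
  deg := fun f => by rw [degree_polesOf_res h]; exact hdeg f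

@[simp] theorem constLift8_ι (f : Fk) : (constLift8 h hD hdeg).ι f = ι f := rfl

section Gen

variable {σ : Fk →ₐ[k] L} {hσ : σ.toRingHom.IsIntegral} {S' : Place Ω FΩ}
  (hS : Realizes ι (KPt.gen σ hσ : KPt k Fk L) S')

include hS

/-- `ι f` is regular at the `Ω`-point of a generic `L`-point … -/
theorem Realizes.gen_mem (f : Fk) : ι f ∈ S'.toValuationSubring := by
  have hc : cΩ Ω FΩ (σ f) ∈ S'.toValuationSubring := S'.algebraMap_mem' _
  rcases hS.gen_val f with h1 | h1
  · rw [h1]; exact hc
  · have : ι f = cΩ Ω FΩ (σ f) + (ι f - cΩ Ω FΩ (σ f)) := by ring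
    rw [this]
    exact add_mem hc (FF.mem_of_ord_nonneg S' h1.le)

/-- … with value `σ f` -/
theorem Realizes.gen_val_eq (f : Fk) : val S' (ι f) = algebraMap L Ω (σ f) :=
  (val_eq_iff S' (Realizes.gen_mem hS f) _).2 (hS.gen_val f)

/-- … and it has neither zero nor pole there -/
theorem Realizes.gen_ord_eq_zero (f : Fk) : S'.ord (ι f) = 0 := by
  have h0 : 0 ≤ S'.ord (ι f) := FF.ord_nonneg_of_mem S' (Realizes.gen_mem hS f)
  have h1 : 0 ≤ S'.ord (ι f⁻¹) := FF.ord_nonneg_of_mem S' (Realizes.gen_mem hS f⁻¹)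
  rw [map_inv₀, S'.ord_inv] at h1
  omega

end Gen

variable {x : Place k L} (hcomap : A.comap (algebraMap L Ω) = x.toValuationSubring)

include hD hdeg hcomap in
/-- **dictionary, generic points**: the `Ω`-point of `σ` specialises at `A` to the restriction of
`x` along `σ` -/
theorem specPlace_gen {σ : Fk →ₐ[k] L} {hσ : σ.toRingHom.IsIntegral} {S' : Place Ω FΩ}
    (hS : Realizes ι (KPt.gen σ hσ : KPt k Fk L) S') :
    specPlace h D S' = x.restrictAlong σ hσ := by
  apply Place.ext
  ext f
  have key := (constLift8 h hD hdeg).val_mem_iff (Q := D.r S') (P := S') rfl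
    (fun f _ => Realizes.gen_ord_eq_zero hS f) f
  rw [constLift8_ι, Realizes.gen_val_eq hS, mem_iff hcomap] at key
  show f ∈ (specPlace h D S').toValuationSubring ↔ f ∈ (x.restrictAlong σ hσ).toValuationSubring
  rw [FF.mem_iff_ord_nonneg, ord_specPlace, ← key]
  exact (mem_restrictAlong_iff σ hσ x f).symm

include hD hdeg hcomap in
/-- **dictionary**: the `Ω`-point of an `L`-point `S` specialises at `A` to the reduction of `S`
at `x` -/
theorem specPlace_eq_red {S : KPt k Fk L} {S' : Place Ω FΩ} (hS : Realizes ι S S') :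
    specPlace h D S' = S.red x := by
  cases S with
  | const p => exact CanDiff.specPlace_eq_of_ord_iota h hD hdeg hS
  | gen σ hσ => exact specPlace_gen h hD hdeg hcomap hS

include hD hdeg hcomap in
/-- the same, in terms of `D.r` -/
theorem r_eq_red {S : KPt k Fk L} {S' : Place Ω FΩ} (hS : Realizes ι S S') :
    D.r S' = resPlaceEquiv h (S.red x) := by
  rw [← specPlace_eq_red h hD hdeg hcomap hS, resPlaceEquiv_specPlace]

/-! ### coordinates -/

omit [HasPrincipalDivisors Ω FΩ] [HasPrincipalDivisors k Fk]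
  [HasPrincipalDivisors (IsLocalRing.ResidueField A) Fk]
  [RatPlaces (IsLocalRing.ResidueField A) Fk] [Algebra k A] [IsScalarTower k A Ω]
  [Algebra (IsLocalRing.ResidueField A) Fk] [IsScalarTower k (IsLocalRing.ResidueField A) Fk] in
/-- a function with a value at a place is regular there, and `val` is that value -/
theorem val_eq_of_hasValue {P : Place Ω FΩ} {y : FΩ} {c : Ω}
    (hy : y = algebraMap Ω FΩ c ∨ 0 < P.ord (y - algebraMap Ω FΩ c)) : val P y = c := by
  have hc : algebraMap Ω FΩ c ∈ P.toValuationSubring := P.algebraMap_mem' c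
  have hmem : y ∈ P.toValuationSubring := by
    rcases hy with h1 | h1
    · rw [h1]; exact hc
    · have : y = algebraMap Ω FΩ c + (y - algebraMap Ω FΩ c) := by ring
      rw [this]
      exact add_mem hc (FF.mem_of_ord_nonneg P h1.le)
  exact (val_eq_iff P hmem c).2 hy

omit [HasPrincipalDivisors Ω FΩ] [HasPrincipalDivisors k Fk]
  [HasPrincipalDivisors (IsLocalRing.ResidueField A) Fk]
  [RatPlaces (IsLocalRing.ResidueField A) Fk] [Algebra k A] [IsScalarTower k A Ω]
  [Algebra (IsLocalRing.ResidueField A) Fk] [IsScalarTower k (IsLocalRing.ResidueField A) Fk] in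
/-- **the value of `ι ϖ` at the `Ω`-point of `S` is the coordinate of `S` at `x`** (`ϖ` the chosen
uniformizer of the reduction of `S` at `x`) -/
theorem val_iota_uniformizer (hrat : ∀ P : Place k Fk, RatRes k P.toValuationSubring)
    {S : KPt k Fk L} {S' : Place Ω FΩ} (hS : Realizes ι S S') (x : Place k L) :
    val S' (ι ((chosenUniformizer (S.red x) : (S.red x).toValuationSubring) : Fk)) =
      algebraMap L Ω (S.coord hrat x) :=
  val_eq_of_hasValue (hS.hasValueAt_coord hrat x)

/-- the chosen uniformizer of `p`, as a uniformizer of the transported place -/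
theorem ord_resPlaceEquiv_uniformizer (p : Place k Fk) :
    (resPlaceEquiv h p).ord ((chosenUniformizer p : p.toValuationSubring) : Fk) = 1 := by
  rw [ord_resPlaceEquiv, ord_chosenUniformizer]

include hD hdeg in
/-- **the coordinate of the `Ω`-point of `S` in the chart of the chosen uniformizer** -/
theorem coord_chart (hrat : ∀ P : Place k Fk, RatRes k P.toValuationSubring)
    {S : KPt k Fk L} {S' : Place Ω FΩ} (hS : Realizes ι S S') (x : Place k L) :
    ((constLift8 h hD hdeg).chart _ (ord_resPlaceEquiv_uniformizer h (S.red x))).coord S' =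
      algebraMap L Ω (S.coord hrat x) :=
  val_iota_uniformizer hrat hS x

end Consumers

/-! ### the modular instance -/

section Modular

open ModularCurve

local notation "Qb" => AlgebraicClosure ℚ

variable {Ω : Type*} [Field Ω] [Algebra ℚ Ω] [Algebra Qb Ω] [IsAlgClosed Ω] (N : ℕ) [NeZero N]
  {L : Type*} [Field L] [Algebra Qb L] [Algebra L Ω] [IsScalarTower Qb L Ω]
  [Algebra.IsAlgebraic L Ω]

/-- **the local setup for `X₀(N)`** at a place `x` of `L` of degree one -/
theorem exists_localSetup_modular {g : ℕ} (hg : IsCurveOfGenus Qb (Fermat.Agent.S18lib.FBar N) g)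
    (x : Place Qb L) (hx : x.deg = 1) :
    letI := algFΩ Ω N
    haveI := towerFΩ Ω N
    ∃ (A : ValuationSubring Ω) (_ : Algebra Qb A) (_ : IsScalarTower Qb A Ω)
      (_ : Algebra (IsLocalRing.ResidueField A) (Fermat.Agent.S18lib.FBar N))
      (_ : IsScalarTower Qb (IsLocalRing.ResidueField A) (Fermat.Agent.S18lib.FBar N))
      (h : ConstData A (iotaΩ Ω N)) (D : RedDatum A (Fermat.Agent.S17lib.CCR.FΩ Ω N) (Fermat.Agent.S18lib.FBar N)),
      D.toGaussDatum = gaussDatum h ∧ A.comap (algebraMap L Ω) = x.toValuationSubring ∧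
        IsCurveOfGenus Ω (Fermat.Agent.S17lib.CCR.FΩ Ω N) g := by
  letI := algFΩ Ω N
  haveI := towerFΩ Ω N
  exact exists_localSetup (constExt_FΩ Ω N) hg (Gin0.transcendental_jF N) x hx

end Modular

end Fermat.Agent.S17lib.LS
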