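/-
S17lib / GenDiv / SpecFinal  (helper2) — Project G: GENDIV's clause (SPEC) for a constant field
extension, the local setups taken from helper1's `LS.exists_localSetup`.
-/
import Mathlib
import Fermat.Agent.S17lib.GenDiv.SpecCCR
import Fermat.Agent.S17lib.GenDiv.LocalSetup

set_option autoImplicit false
set_option linter.unusedSectionVars false
set_option linter.style.haveILetI false

noncomputable section

namespace Fermat.Agent.S17lib.GenDivSpec

open AlgebraicCurve IntermediateField Fermat.Agent.S17lib.DegChain Fermat.Agent.S17lib.CCR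
open Fermat.Agent.S18lib

variable {k Ω Fk FΩ L : Type*} [Field k] [Field Ω] [Field Fk] [Field FΩ] [Field L]
  [Algebra k Ω] [Algebra k Fk] [Algebra Ω FΩ] [Algebra k FΩ] [IsScalarTower k Ω FΩ]
  [Algebra k L] [Algebra L Ω] [IsScalarTower k L Ω] {ι : Fk →ₐ[k] FΩ}

/-- **GENDIV's clause (SPEC)** for a constant field extension `ι : Fk → FΩ` (`Ω ⊇ L ⊇ k`, `Ω / L`
algebraic): from the relation `hrel` over `Ω` and the dictionary.  Constant class
`b₀ = [C + d inf]`, empty exceptional set. -/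
theorem spec_clause_of_constExt [CharZero k] [IsAlgClosed k] [IsAlgClosed Ω]
    [Algebra.IsAlgebraic L Ω] [HasPrincipalDivisors k L]
    (hc : ConstExt Ω ι) {g : ℕ} (hFk : IsCurveOfGenus k Fk g)
    {y₀ : Fk} (hy₀ : Transcendental k y₀) [FiniteDimensional k⟮y₀⟯ Fk]
    (hdegL : ∀ x : Place k L, x.deg = 1)
    (inf : Place k Fk) (hdeg : ∀ P : Place k Fk, P.deg = 1) (m d : ℕ)
    (η : Fk →ₐ[k] L) (hη : η.toRingHom.IsIntegral) (hηfin : FiniteAlong k η)
    (σ : Fin d → Fk →ₐ[k] L) (hσ : ∀ j, (σ j).toRingHom.IsIntegral)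
    (η' : Place Ω FΩ) (Q' : Fin d → Place Ω FΩ) (cst : Place k Fk → Place Ω FΩ)
    (C : Divisor k Fk) (hC : Divisor.degree C + d = 0)
    (hηR : Realizes ι (KPt.gen η hη : KPt k Fk L) η')
    (hQR : ∀ j, Realizes ι (KPt.gen (σ j) (hσ j) : KPt k Fk L) (Q' j))
    (hcst : ∀ p, Realizes ι (KPt.const p : KPt k Fk L) (cst p))
    (hrel : (m • (∑ j, Finsupp.single (Q' j) (1 : ℤ) + Finsupp.mapDomain cst C)
      - Finsupp.single η' (1 : ℤ) + Finsupp.single (cst inf) (1 : ℤ) : Divisor Ω FΩ) ∈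
        Divisor.principal (K := Ω) (F := FΩ)) :
    ∀ P : Place k Fk, P ∉ (∅ : Set (Place k Fk)) →
      ∃ (x : Place k L) (Q : Fin d → Place k Fk),
      LiesOver η x P ∧ (∀ j, LiesOver (σ j) x (Q j)) ∧
      m • (Pic0.mk (constClass inf hdeg d C hC) + ∑ j, Pic0.mk (ptDiv inf hdeg (Q j))) =
        Pic0.mk (ptDiv inf hdeg P) := by
  intro P _
  -- the genus of `FΩ` from one local setup (at any place of `L`, e.g. one over `P`)
  obtain ⟨x₀, -⟩ := exists_place_over hdegL η hη hηfin P (hdeg P)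
  obtain ⟨A₀, _, _, _, _, _, _, -, -, hFΩ⟩ :=
    LS.exists_localSetup (L := L) hc hFk hy₀ x₀ (hdegL x₀)
  refine spec_clause hc hFk hFΩ y₀ hdegL (fun x => ?_) inf hdeg m d η hη hηfin σ hσ η' Q' cst C hC
    hηR hQR hcst hrel P
  obtain ⟨A, i1, i2, i3, i4, h, D, hD, hcomap, -⟩ :=
    LS.exists_localSetup (L := L) hc hFk hy₀ x (hdegL x)
  refine ⟨A, i1, i2, i3, i4, h, D, hD, fun l => ?_⟩
  rw [← hcomap, ValuationSubring.mem_comap]

end Fermat.Agent.S17lib.GenDivSpec
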