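/-
S17lib / GenDiv / SpecData  (helper2) — Project G: the SPEC half of GENDIV in the CONTRACT shape of
the chief architect (`S17lib/GenDivData.lean`): from the `Ω`-level datum `OmegaData` and the
`L`-level datum `LData` to the hypothesis `hSPEC` of `gendiv_generic`.
-/
import Mathlib
import Fermat.Agent.S17lib.GenDiv.SpecFinal
import Fermat.Agent.S17lib.GenDivData
import Fermat.Agent.S17lib.CCR.Header

set_option autoImplicit false
set_option linter.unusedSectionVars false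
set_option linter.style.haveILetI false

noncomputable section

namespace Fermat.Agent.S17lib.GenDivSpec

open AlgebraicCurve IntermediateField Fermat.Agent.S17lib.DegChain Fermat.Agent.S17lib.CCR
open Fermat.Agent.S18lib Fermat.Agent.ProgramR

variable {k Ω Fk FΩ : Type*} [Field k] [Field Ω] [Field Fk] [Field FΩ]
  [Algebra k Ω] [Algebra k Fk] [Algebra Ω FΩ] [Algebra k FΩ] [IsScalarTower k Ω FΩ]
  [Algebra Fk Ω] [IsScalarTower k Fk Ω]

/-- **(SPEC) in the contract shape**: the hypothesis `hSPEC` of `gendiv_generic` for one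
`(L, η, σ)`. -/
theorem spec_clause_data [CharZero k] [IsAlgClosed k] [IsAlgClosed Ω] [Algebra.IsAlgebraic Fk Ω]
    {ι : Fk →ₐ[k] FΩ} (hc : ConstExt Ω ι) {g : ℕ} (hFk : IsCurveOfGenus k Fk g)
    {y₀ : Fk} (hy₀ : Transcendental k y₀) [FiniteDimensional k⟮y₀⟯ Fk]
    (inf : Place k Fk) (hdeg : ∀ P : Place k Fk, P.deg = 1) (m : ℕ)
    {cst : Place k Fk → Place Ω FΩ} {η' : Place Ω FΩ} {d : ℕ} {Q' : Fin d → Place Ω FΩ}
    {σ' : Fin d → Fk →ₐ[k] Ω} {B₀ E₀ : Divisor k Fk} {φ : FΩ}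
    (hΩ : OmegaData ι inf g m cst η' d Q' σ' B₀ E₀ φ)
    (hC : Divisor.degree (E₀ - B₀) + d = 0)
    (L : IntermediateField k Ω) (η : Fk →ₐ[k] L) (σ : Fin d → Fk →ₐ[k] L)
    (hL : LData σ' y₀ L η σ) :
    ∀ P : Place k Fk, ∃ (x : Place k L) (Q : Fin d → Place k Fk),
      LiesOver η x P ∧ (∀ j, LiesOver (σ j) x (Q j)) ∧
      m • (Pic0.mk (constClass inf hdeg d (E₀ - B₀) hC) + ∑ j, Pic0.mk (ptDiv inf hdeg (Q j))) =
        Pic0.mk (ptDiv inf hdeg P) := by
  classical
  haveI : Algebra.IsAlgebraic L Ω := isAlgebraic_intermediateField L fun f => by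
    rw [← hL.eta_coe f]; exact (η f).2
  haveI := hL.fd
  haveI : HasPrincipalDivisors k L := FF.hasPrincipalDivisors (η y₀) hL.transc
  have hdegL : ∀ x : Place k L, x.deg = 1 := fun x => FF.deg_eq_one (η y₀) x
  have hηR : Realizes ι (KPt.gen η hL.eta_int : KPt k Fk L) η' := by
    intro f
    show ι f = algebraMap Ω FΩ (algebraMap L Ω (η f)) ∨
      0 < η'.ord (ι f - algebraMap Ω FΩ (algebraMap L Ω (η f)))
    have : algebraMap L Ω (η f) = algebraMap Fk Ω f := hL.eta_coe f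
    rw [this]
    exact hΩ.eta_val f
  have hQR : ∀ j, Realizes ι (KPt.gen (σ j) (hL.sigma_fin j).2.2 : KPt k Fk L) (Q' j) := by
    intro j f
    show ι f = algebraMap Ω FΩ (algebraMap L Ω (σ j f)) ∨
      0 < (Q' j).ord (ι f - algebraMap Ω FΩ (algebraMap L Ω (σ j f)))
    have : algebraMap L Ω (σ j f) = σ' j f := hL.sigma_coe j f
    rw [this]
    exact hΩ.Q_val j f
  have hcst : ∀ p, Realizes ι (KPt.const p : KPt k Fk L) (cst p) := fun p f => hΩ.cst_ord p f
  have hrel : (m • (∑ j, Finsupp.single (Q' j) (1 : ℤ) + Finsupp.mapDomain cst (E₀ - B₀))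
      - Finsupp.single η' (1 : ℤ) + Finsupp.single (cst inf) (1 : ℤ) : Divisor Ω FΩ) ∈
        Divisor.principal (K := Ω) (F := FΩ) := by
    refine ⟨φ, hΩ.phi_ne, fun P => ?_⟩
    rw [hΩ.ord_phi P]
    simp only [Finsupp.add_apply, Finsupp.sub_apply, Finsupp.smul_apply, nsmul_eq_mul]
    ring
  intro P
  exact spec_clause_of_constExt hc hFk hy₀ hdegL inf hdeg m d η hL.eta_int hL.eta_fin σ
    (fun j => (hL.sigma_fin j).2.2) η' Q' cst (E₀ - B₀) hC hηR hQR hcst hrel P
    (Set.notMem_empty P)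

end Fermat.Agent.S17lib.GenDivSpec
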