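/-
S17lib / GenDiv / Assemble  (helper1) — Project G (S17): `GENDIV` for a constant field extension
(`gendiv_constExt`) and for `X₀(N)` (`gendiv_modular`), by plugging the two halves

* (SPEC) helper2's `GenDivSpec.spec_clause_data`,
* (DEG)  `LS.deg_clause`,

into helper7's `gendiv_generic`, on helper4's `Ω`-level division datum (`OmegaData`, F1).
-/
import Mathlib
import Fermat.Agent.S17lib.GenDiv.DegClause
import Fermat.Agent.S17lib.GenDiv.SpecData
import Fermat.Agent.S17lib.GenDivFinal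
import Fermat.Agent.S17lib.CCR.DivOmega

set_option autoImplicit false
set_option linter.unusedSectionVars false
set_option linter.style.haveILetI false

noncomputable section

namespace Fermat.Agent.S17lib.LS

open AlgebraicCurve IntermediateField
open Fermat.Agent.S18lib Fermat.Agent.S15lib.Weil Fermat.Agent.S17lib.CCR
open Fermat.Agent.S17lib.GenDivSpec

section Generic

universe u v w

variable {k : Type u} {Ω : Type w} {Fk : Type v} {FΩ : Type*} [Field k] [Field Ω] [Field Fk]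
  [Field FΩ] [Algebra k Ω] [Algebra k Fk] [Algebra Ω FΩ] [Algebra k FΩ] [IsScalarTower k Ω FΩ]
  [Algebra Fk Ω] [IsScalarTower k Fk Ω]

/-- **`GENDIV` for a constant field extension**, from the `Ω`-level division datum. -/
theorem gendiv_constExt [CharZero k] [IsAlgClosed k] [IsAlgClosed Ω] [Algebra.IsAlgebraic Fk Ω]
    {ι : Fk →ₐ[k] FΩ} (hc : ConstExt Ω ι) {g : ℕ} (hFk : IsCurveOfGenus k Fk g)
    (hFΩ : IsCurveOfGenus Ω FΩ g)
    {y₀ : Fk} (hy₀ : Transcendental k y₀) [FiniteDimensional k⟮y₀⟯ Fk]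
    (inf : Place k Fk) (hdeg : ∀ P : Place k Fk, P.deg = 1) (m : ℕ)
    {cst : Place k Fk → Place Ω FΩ} {η' : Place Ω FΩ} {d : ℕ} {Q' : Fin d → Place Ω FΩ}
    {σ' : Fin d → Fk →ₐ[k] Ω} {B₀ E₀ : Divisor k Fk} {φ : FΩ}
    (hΩ : OmegaData ι inf g m cst η' d Q' σ' B₀ E₀ φ)
    (hgen : ∀ P : Place Ω FΩ, P ∉ Set.range cst → ∀ f : Fk, f ≠ 0 → P.ord (ι f) = 0) :
    GENDIV.{u, v, w} inf hdeg g m := by
  haveI : RatPlaces Ω FΩ := ⟨hFΩ.deg_eq_one⟩
  haveI : Infinite (Place k Fk) := hFk.infinite_places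
  exact gendiv_generic ι hy₀ inf hdeg m hΩ
    (fun L η σ hL => spec_clause_data hc hFk hy₀ inf hdeg m hΩ hΩ.degC L η σ hL)
    (fun r₀ hB hE hinf L η σ hL hR => deg_clause hc hFk hFΩ hy₀ hΩ hgen hB hE hinf L η σ hL hR)

end Generic

section Modular

open ModularCurve

local notation "Qb" => AlgebraicClosure ℚ

variable (N : ℕ) [NeZero N]

/-- **`GENDIV` for `X₀(N)`** (true genus `g ≥ 1`, every `m ≥ 1`). -/
theorem gendiv_modular {g : ℕ} (hg : IsCurveOfGenus Qb (Fermat.Agent.S18lib.FBar N) g)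
    (hg1 : 1 ≤ g) (inf : Place Qb (Fermat.Agent.S18lib.FBar N))
    (hdeg : ∀ P : Place Qb (Fermat.Agent.S18lib.FBar N), P.deg = 1) {m : ℕ} (hm : 0 < m) :
    GENDIV.{0, 0, 0} inf hdeg g m := by
  letI := algFΩ (Ωb N) N
  haveI := towerFΩ (Ωb N) N
  obtain ⟨cst, η', d, Q', σ', B₀, E₀, φ, hΩ, hd⟩ := exists_omega_data_FΩb N hg hg1 inf hm
  exact gendiv_constExt (constExt_FΩ (Ωb N) N) hg (isCurveOfGenus_FΩb N hg)
    (Gin0.transcendental_jF N) inf hdeg m hΩ (fun P hP f _ => hd.ord_iota_eq_zero hP f)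

end Modular

end Fermat.Agent.S17lib.LS
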