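/-
S17lib / GenDiv / GenusZero  (helper9) — Project G: the degenerate cases of `GENDIV`.

* `gendiv_mono` : `GENDIV inf hdeg g m → g ≤ g' → GENDIV inf hdeg g' m`;
* `subsingleton_pic0_of_genus_zero` : on a curve of genus `0` every divisor of degree `0` is
  principal, so `Pic0` is trivial;
* `gendiv_of_genus_zero` : `GENDIV inf hdeg g m` for every `g`, `m` on a curve of genus `0`
  (`L := F`, `η := id`, no sections).
-/
import Mathlib
import Fermat.Agent.S17lib.Glue

set_option autoImplicit false

noncomputable section

namespace Fermat.Agent.S17lib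

open AlgebraicCurve Module
open Fermat.Agent.S18lib

universe u v w

variable {K : Type u} {F : Type v} [Field K] [Field F] [Algebra K F]

/-- `GENDIV` is monotone in the genus bound. -/
theorem gendiv_mono {inf : Place K F} {hdeg : ∀ P : Place K F, P.deg = 1} {g g' m : ℕ}
    (h : GENDIV.{u, v, w} inf hdeg g m) (hgg : g ≤ g') : GENDIV.{u, v, w} inf hdeg g' m := by
  obtain ⟨L, iL, iA, η, d, σ, b₀, S, hd, hS, hη, hspec, hdegb⟩ := h
  refine ⟨L, iL, iA, η, d, σ, b₀, S, hd.trans hgg, hS, hη, hspec, hdegb.trans ?_⟩
  exact Nat.mul_le_mul_right _ hgg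

/-- on a curve of genus `0` every divisor of degree `0` is principal -/
theorem mem_principal_of_genus_zero (hF : IsCurveOfGenus K F 0) {E : Divisor K F}
    (hE : Divisor.degree E = 0) : E ∈ Divisor.principal (K := K) (F := F) := by
  have h1 := hF.riemann_le E
  rw [hE] at h1
  have hpos : 0 < finrank K (riemannRochSpace E) := by
    have : (1 : ℤ) ≤ finrank K (riemannRochSpace E) := by simpa using h1
    exact_mod_cast this
  have := hF.finiteDimensional E
  obtain ⟨⟨t, ht⟩, ht0⟩ : ∃ t : riemannRochSpace E, t ≠ 0 := by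
    have : Nontrivial (riemannRochSpace E) := Module.finrank_pos_iff.mp hpos
    exact exists_ne 0
  exact Cech.mem_principal_of_mem_rr hF hE ht (fun h0 => ht0 (Subtype.ext h0))

/-- `Pic0` of a curve of genus `0` is trivial -/
theorem subsingleton_pic0_of_genus_zero (hF : IsCurveOfGenus K F 0) :
    Subsingleton (Pic0 K F) := by
  refine ⟨fun a b => ?_⟩
  have key : ∀ c : Pic0 K F, c = 0 := by
    intro c
    induction c using QuotientAddGroup.induction_on with
    | H D =>
      rw [QuotientAddGroup.eq_zero_iff, AddSubgroup.mem_addSubgroupOf]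
      exact mem_principal_of_genus_zero hF (Divisor.mem_degZero.mp D.2)
  rw [key a, key b]

/-- **`GENDIV` on a curve of genus `0`** (trivial Jacobian): `L := F`, `η := id`, no sections. -/
theorem gendiv_of_genus_zero (hF : IsCurveOfGenus K F 0) (inf : Place K F)
    (hdeg : ∀ P : Place K F, P.deg = 1) (g m : ℕ) : GENDIV.{u, v, v} inf hdeg g m := by
  have := subsingleton_pic0_of_genus_zero hF
  have hfr : finrankAlong K (AlgHom.id K F) = 1 := by
    unfold finrankAlong
    exact Module.finrank_self F
  refine ⟨F, inferInstance, inferInstance, AlgHom.id K F, 0, Fin.elim0, 0, ∅, Nat.zero_le _,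
    Set.finite_empty, by rw [hfr]; exact one_pos, fun P _ => ?_, by simp⟩
  exact ⟨P, Fin.elim0, fun f => Iff.rfl, fun j => j.elim0, Subsingleton.elim _ _⟩

end Fermat.Agent.S17lib
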